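/-
T1B / TOP44 + GLOBAL44 (helper68): statement-level decomposition of S44
(`FreyPackage.level_lowering_at_p_of_conductorLevel`) into Props, and the wiring.

Imports: Mathlib + Prelude only.  Everything here is fully proved; the Props are discharged elsewhere.

  S44  ⇐  BadAtTwo + OLD2 + LOWER2 + STAB2 + INCL2 + MAIN44          (`s44_of_props`)

* `CongFrey p W 𝔪 g L'`   : `a_ℓ(g) ≡ a_ℓ(W) mod 𝔪` for all primes `ℓ` good for `W`, `ℓ ∤ L'`, `ℓ ≠ p`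
                            (verbatim the last clause of `FreyPackage.ModularRepOfLevel`).
* `BadAtTwo`  : every integral model of a Frey curve has even discriminant  (helper68, Top68/BadAtTwo).
* `OLD2`      : level `2m` (`m` odd), `a_2² ≠ 1` ⇒ the good eigensystem occurs at level `m`
                (helper21, `T1B/U2Lower21`).
* `LOWER2`    : level `4m`, `a_2 ≠ 0` ⇒ the same `q`-expansion has level `2m` (helper50, `T1/U2Lower50`: landed).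
* `STAB2`     : 2-stabilisation: odd level `M` ⇒ level `4M` eigenform `f(z) − β f(2z)` with
                `U_2`-eigenvalue `α`, `α ∉ 𝔪`, `α² − 1 ∉ 𝔪`  (needs `2, 3 ∉ 𝔪`).
* `INCL2`     : level inclusion `M → 2M` for even `M` keeps normalised eigenforms.
* `MAIN44`    : THE geometric theorem (local team + G1–G4): level lowering at `p` at the auxiliary
                level `4·m·p → 4·m` (`m` odd squarefree, `p ∤ m`), carrying the `U_2`-eigenvalue mod `𝔪`.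
-/
import Mathlib
import Fermat.Prelude.Def_FLTPrelim_FreyPackage
import Fermat.Prelude.Def_FLTPrelim_GaloisRep
import Fermat.Prelude.Def_FLTPrelim_Modularity
import Fermat.Prelude.Def_FLTPrelim_ModularRep
import Fermat.Prelude.Def_FreyPackage_IsConductorLevel
import Fermat.Prelude.Def_CuspForm_Newforms

set_option autoImplicit false
open WeierstrassCurve WeierstrassCurve.Affine WeierstrassCurve.Affine.Point
open CuspForm ModularFormClass CongruenceSubgroup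

namespace Fermat.Agent.T1B.Top68

/-- `a_ℓ(g) ≡ a_ℓ(W) mod 𝔪` for all primes `ℓ` of good reduction for `W`, `ℓ ∤ L'`, `ℓ ≠ p`. -/
def CongFrey (p : ℕ) (W : WeierstrassCurve ℤ) (𝔪 : Ideal (integralClosure ℤ ℂ)) {L : ℕ}
    (g : CuspForm (Gamma0 L) 2) (L' : ℕ) : Prop :=
  ∀ ℓ : ℕ, ℓ.Prime → W.IsGoodPrimeFor ℓ → ¬ ℓ ∣ L' → ℓ ≠ p →
    ∃ a : integralClosure ℤ ℂ, (a : ℂ) = qCoeff g ℓ ∧
      a - ((W.apOfModel ℓ : ℤ) : integralClosure ℤ ℂ) ∈ 𝔪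

theorem modularRepOfLevel_iff (P : FreyPackage) (N : ℕ) :
    P.ModularRepOfLevel N ↔
      ∃ (f : CuspForm (Gamma0 N) 2) (W : WeierstrassCurve ℤ) (𝔪 : Ideal (integralClosure ℤ ℂ)),
        f.IsNormalizedEigenform ∧ W.IsIntegralModelOf P.freyCurve ∧ 𝔪.IsMaximal ∧
          (P.p : integralClosure ℤ ℂ) ∈ 𝔪 ∧ CongFrey P.p W 𝔪 f N :=
  Iff.rfl

/-! ### The Props -/

/-- Every integral model of a Frey curve has even discriminant. -/
def BadAtTwo : Prop :=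
  ∀ (P : FreyPackage) (W : WeierstrassCurve ℤ), W.IsIntegralModelOf P.freyCurve → (2 : ℤ) ∣ W.Δ

/-- 2-old criterion: level `2m`, `m` odd, `a_2² ≠ 1` ⇒ the good eigensystem occurs at level `m`. -/
def OLD2 : Prop :=
  ∀ m : ℕ, 0 < m → ¬ 2 ∣ m → ∀ g : CuspForm (Gamma0 (2 * m)) 2, g.IsNormalizedEigenform →
    qCoeff g 2 ^ 2 ≠ 1 → CuspForm.GoodEigensystemOccursAt g m

/-- `U_2`-lowering: level `4m`, `a_2 ≠ 0` ⇒ same `q`-expansion at level `2m`. -/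
def LOWER2 : Prop :=
  ∀ m : ℕ, 0 < m → ∀ g : CuspForm (Gamma0 (4 * m)) 2, g.IsNormalizedEigenform →
    qCoeff g 2 ≠ 0 →
    ∃ h : CuspForm (Gamma0 (2 * m)) 2, h.IsNormalizedEigenform ∧ ∀ n, qCoeff h n = qCoeff g n

/-- 2-stabilisation at odd level, with the `U_2`-eigenvalue chosen prime to `𝔪` and of square
`≢ 1 mod 𝔪` (possible as `αβ = 2` and `2, 3 ∉ 𝔪`). -/
def STAB2 : Prop :=
  ∀ M : ℕ, 0 < M → ¬ 2 ∣ M → ∀ f : CuspForm (Gamma0 M) 2, f.IsNormalizedEigenform →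
    ∀ 𝔪 : Ideal (integralClosure ℤ ℂ), 𝔪.IsMaximal →
      (2 : integralClosure ℤ ℂ) ∉ 𝔪 → (3 : integralClosure ℤ ℂ) ∉ 𝔪 →
      ∃ (f' : CuspForm (Gamma0 (4 * M)) 2) (α : integralClosure ℤ ℂ),
        f'.IsNormalizedEigenform ∧ (∀ ℓ : ℕ, ℓ.Prime → ℓ ≠ 2 → qCoeff f' ℓ = qCoeff f ℓ) ∧
          (α : ℂ) = qCoeff f' 2 ∧ α ∉ 𝔪 ∧ α ^ 2 - 1 ∉ 𝔪

/-- Level inclusion `M → 2M` for even `M`. -/
def INCL2 : Prop :=
  ∀ M : ℕ, 0 < M → 2 ∣ M → ∀ f : CuspForm (Gamma0 M) 2, f.IsNormalizedEigenform →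
    ∃ f' : CuspForm (Gamma0 (2 * M)) 2, f'.IsNormalizedEigenform ∧ ∀ n, qCoeff f' n = qCoeff f n

/-- **MAIN44**: level lowering at `p` at the auxiliary level `4·m·p`, `m` odd squarefree prime to
`p`, for a form congruent to the Frey curve with `E[p]` irreducible; the `U_2`-eigenvalue is
carried along modulo the maximal ideals (in the two shapes needed to come back from level `4m`).
The maximal ideal over `p` may change (Deligne–Serre lifting). -/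
def MAIN44 : Prop :=
  ∀ (P : FreyPackage) (m : ℕ), 0 < m → ¬ 2 ∣ m → Squarefree m → ¬ P.p ∣ m →
    (∀ q : ℕ, q.Prime → q ∣ m → (q : ℤ) ∣ P.a * P.b * P.c) → (P.p : ℤ) ∣ P.a * P.b * P.c →
    GaloisRepIsIrreducible (K := AlgebraicClosure ℚ) ℚ P.freyCurve P.p →
    ∀ (f : CuspForm (Gamma0 (4 * m * P.p)) 2) (W : WeierstrassCurve ℤ)
      (𝔪 : Ideal (integralClosure ℤ ℂ)) (α : integralClosure ℤ ℂ),
      f.IsNormalizedEigenform → W.IsIntegralModelOf P.freyCurve → 𝔪.IsMaximal →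
      (P.p : integralClosure ℤ ℂ) ∈ 𝔪 → CongFrey P.p W 𝔪 f (4 * m * P.p) →
      (α : ℂ) = qCoeff f 2 →
      ∃ (g : CuspForm (Gamma0 (4 * m)) 2) (𝔪' : Ideal (integralClosure ℤ ℂ))
        (α' : integralClosure ℤ ℂ),
        g.IsNormalizedEigenform ∧ 𝔪'.IsMaximal ∧ (P.p : integralClosure ℤ ℂ) ∈ 𝔪' ∧
          CongFrey P.p W 𝔪' g (4 * m) ∧ (α' : ℂ) = qCoeff g 2 ∧
          (α ∉ 𝔪 → α' ∉ 𝔪') ∧ (α ^ 2 - 1 ∉ 𝔪 → α' ^ 2 - 1 ∉ 𝔪')

/-! ### Small helpers -/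

/-- Transport of a normalised eigenform along an equality of levels. -/
theorem exists_eigenform_of_level_eq {N N' : ℕ} (h : N = N') (f : CuspForm (Gamma0 N) 2)
    (hf : f.IsNormalizedEigenform) :
    ∃ g : CuspForm (Gamma0 N') 2, g.IsNormalizedEigenform ∧ ∀ n, qCoeff g n = qCoeff f n := by
  subst h
  exact ⟨f, hf, fun _ => rfl⟩

/-- A natural number prime to `p` is not in a maximal ideal containing `p`. -/
theorem natCast_not_mem {𝔪 : Ideal (integralClosure ℤ ℂ)} (h𝔪 : 𝔪.IsMaximal) {p : ℕ}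
    (hp : (p : integralClosure ℤ ℂ) ∈ 𝔪) {n : ℕ} (hn : Nat.Coprime n p) :
    (n : integralClosure ℤ ℂ) ∉ 𝔪 := by
  intro hn𝔪
  have h1 : ((n : ℤ) * Nat.gcdA n p + (p : ℤ) * Nat.gcdB n p : ℤ) = 1 := by
    have := Nat.gcd_eq_gcd_ab n p
    rw [hn] at this
    exact_mod_cast this.symm
  have h2 : ((1 : ℤ) : integralClosure ℤ ℂ) ∈ 𝔪 := by
    rw [← h1]
    push_cast
    exact 𝔪.add_mem (𝔪.mul_mem_right _ hn𝔪) (𝔪.mul_mem_right _ hp)
  apply h𝔪.ne_top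
  rw [Ideal.eq_top_iff_one]
  simpa using h2

theorem coe_ne_zero_of_not_mem {𝔪 : Ideal (integralClosure ℤ ℂ)} {a : integralClosure ℤ ℂ}
    (h : a ∉ 𝔪) : (a : ℂ) ≠ 0 := by
  intro h0
  apply h
  have : a = 0 := Subtype.ext h0
  rw [this]
  exact 𝔪.zero_mem

theorem coe_sq_ne_one_of_not_mem {𝔪 : Ideal (integralClosure ℤ ℂ)} {a : integralClosure ℤ ℂ}
    (h : a ^ 2 - 1 ∉ 𝔪) : (a : ℂ) ^ 2 ≠ 1 := by
  intro h1
  apply h
  have : a ^ 2 - 1 = 0 := by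
    apply Subtype.ext
    push_cast
    rw [h1, sub_self]
  rw [this]
  exact 𝔪.zero_mem

/-- A prime `ℓ ≠ 2` not dividing `m` does not divide `2 * m` nor `4 * m`. -/
theorem not_dvd_two_mul {ℓ m : ℕ} (hℓ : ℓ.Prime) (h2 : ℓ ≠ 2) (hm : ¬ ℓ ∣ m) : ¬ ℓ ∣ 2 * m := by
  intro h
  rcases (Nat.Prime.dvd_mul hℓ).mp h with h | h
  · exact h2 ((Nat.prime_dvd_prime_iff_eq hℓ Nat.prime_two).mp h)
  · exact hm h

theorem not_dvd_four_mul {ℓ m : ℕ} (hℓ : ℓ.Prime) (h2 : ℓ ≠ 2) (hm : ¬ ℓ ∣ m) : ¬ ℓ ∣ 4 * m := by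
  intro h
  have h4 : 4 * m = 2 * (2 * m) := by ring
  rw [h4] at h
  rcases (Nat.Prime.dvd_mul hℓ).mp h with h | h
  · exact h2 ((Nat.prime_dvd_prime_iff_eq hℓ Nat.prime_two).mp h)
  · exact not_dvd_two_mul hℓ h2 hm h

/-- Under `BadAtTwo`, a prime good for an integral Frey model is odd. -/
theorem ne_two_of_good (hBad : BadAtTwo) {P : FreyPackage} {W : WeierstrassCurve ℤ}
    (hW : W.IsIntegralModelOf P.freyCurve) {ℓ : ℕ} (hgood : W.IsGoodPrimeFor ℓ) : ℓ ≠ 2 := by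
  rintro rfl
  exact hgood (by exact_mod_cast hBad P W hW)

/-! ### The odd case -/

/-- The case of an odd conductor level. -/
theorem s44_odd (hBad : BadAtTwo) (hOld : OLD2) (hLow : LOWER2) (hStab : STAB2) (hMain : MAIN44)
    (P : FreyPackage) {N : ℕ} (hcond : P.IsConductorLevel N) (hpN : P.p ∣ N) (hodd : ¬ 2 ∣ N)
    (hirr : GaloisRepIsIrreducible (K := AlgebraicClosure ℚ) ℚ P.freyCurve P.p)
    (hmod : P.ModularRepOfLevel N) :
    ∃ M : ℕ, M ∣ N ∧ ¬ P.p ∣ M ∧ P.ModularRepOfLevel M := by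
  obtain ⟨f, W, 𝔪, hf, hW, h𝔪, hp𝔪, hcong⟩ := hmod
  obtain ⟨m, hm⟩ := hpN
  have hN : N = m * P.p := by rw [hm, mul_comm]
  have hmpos : 0 < m := by
    rcases Nat.eq_zero_or_pos m with h | h
    · exfalso; have := hcond.pos; rw [hm, h, mul_zero] at this; exact lt_irrefl 0 this
    · exact h
  have hmN : m ∣ N := ⟨P.p, hN⟩
  have hmodd : ¬ 2 ∣ m := fun h => hodd (h.trans hmN)
  have hmsq : Squarefree m := hcond.squarefree.squarefree_of_dvd hmN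
  have hpm : ¬ P.p ∣ m := by
    intro h
    apply hcond.sq_not_dvd P.pp
    rw [hN, pow_two]
    exact Nat.mul_dvd_mul_right h P.p
  have hp5 := P.hp5
  have h2𝔪 : (2 : integralClosure ℤ ℂ) ∉ 𝔪 := by
    have := natCast_not_mem h𝔪 hp𝔪 (n := 2)
      ((Nat.coprime_primes Nat.prime_two P.pp).mpr (by omega))
    simpa using this
  have h3𝔪 : (3 : integralClosure ℤ ℂ) ∉ 𝔪 := by
    have := natCast_not_mem h𝔪 hp𝔪 (n := 3)
      ((Nat.coprime_primes Nat.prime_three P.pp).mpr (by omega))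
    simpa using this
  -- 2-stabilise
  obtain ⟨f₁, α, hf₁, hf₁q, hα, hα𝔪, hα2𝔪⟩ := hStab N hcond.pos hodd f hf 𝔪 h𝔪 h2𝔪 h3𝔪
  have hlev : 4 * N = 4 * m * P.p := by rw [hN]; ring
  obtain ⟨f₂, hf₂, hf₂q⟩ := exists_eigenform_of_level_eq hlev f₁ hf₁
  have hcong₂ : CongFrey P.p W 𝔪 f₂ (4 * m * P.p) := by
    intro ℓ hℓ hgood hℓN hℓp
    have hℓ2 : ℓ ≠ 2 := ne_two_of_good hBad hW hgood
    have hℓN' : ¬ ℓ ∣ N := by
      intro h
      apply hℓN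
      rw [← hlev]
      exact h.trans (dvd_mul_left N 4)
    obtain ⟨a, ha, ha𝔪⟩ := hcong ℓ hℓ hgood hℓN' hℓp
    exact ⟨a, by rw [ha, hf₂q, hf₁q ℓ hℓ hℓ2], ha𝔪⟩
  -- the geometric theorem
  obtain ⟨g, 𝔪', α', hg, h𝔪', hp𝔪', hcongg, hα', hαα', hαα'2⟩ :=
    hMain P m hmpos hmodd hmsq hpm (fun q hq hqm => hcond.support q hq (hqm.trans hmN))
      (hcond.p_dvd_abc ⟨m, hm⟩) hirr f₂ W 𝔪 α hf₂ hW h𝔪 hp𝔪 hcong₂ (by rw [hα, hf₂q])
  have hα'𝔪 : α' ∉ 𝔪' := hαα' hα𝔪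
  have hα'2𝔪 : α' ^ 2 - 1 ∉ 𝔪' := hαα'2 hα2𝔪
  -- back to level 2m
  obtain ⟨h, hh, hhq⟩ := hLow m hmpos g hg (by rw [← hα']; exact coe_ne_zero_of_not_mem hα'𝔪)
  -- back to level m
  obtain ⟨g₃, hg₃, hg₃q⟩ := hOld m hmpos hmodd h hh
    (by rw [hhq, ← hα']; exact coe_sq_ne_one_of_not_mem hα'2𝔪)
  refine ⟨m, hmN, hpm, g₃, W, 𝔪', hg₃, hW, h𝔪', hp𝔪', ?_⟩
  intro ℓ hℓ hgood hℓm hℓp
  have hℓ2 : ℓ ≠ 2 := ne_two_of_good hBad hW hgood
  obtain ⟨a, ha, ha𝔪⟩ := hcongg ℓ hℓ hgood (not_dvd_four_mul hℓ hℓ2 hℓm) hℓp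
  exact ⟨a, by rw [ha, hg₃q ℓ hℓ (not_dvd_two_mul hℓ hℓ2 hℓm), hhq], ha𝔪⟩

/-! ### The general case -/

/-- **S44 from the Props.** -/
theorem s44_of_props (hBad : BadAtTwo) (hOld : OLD2) (hLow : LOWER2) (hStab : STAB2)
    (hIncl : INCL2) (hMain : MAIN44)
    (P : FreyPackage) {N : ℕ} (hcond : P.IsConductorLevel N) (hpN : P.p ∣ N)
    (hirr : GaloisRepIsIrreducible (K := AlgebraicClosure ℚ) ℚ P.freyCurve P.p)
    (hmod : P.ModularRepOfLevel N) :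
    ∃ M : ℕ, M ∣ N ∧ ¬ P.p ∣ M ∧ P.ModularRepOfLevel M := by
  by_cases hodd : ¬ 2 ∣ N
  · exact s44_odd hBad hOld hLow hStab hMain P hcond hpN hodd hirr hmod
  rw [not_not] at hodd
  obtain ⟨N₁, hN₁⟩ := hodd
  have hp5 := P.hp5
  have hN₁N : N₁ ∣ N := ⟨2, by rw [hN₁, mul_comm]⟩
  have hN₁pos : 0 < N₁ := by
    rcases Nat.eq_zero_or_pos N₁ with h | h
    · exfalso; have := hcond.pos; rw [hN₁, h, mul_zero] at this; exact lt_irrefl 0 this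
    · exact h
  have hN₁odd : ¬ 2 ∣ N₁ := by
    intro h
    apply hcond.sq_not_dvd Nat.prime_two
    rw [hN₁, pow_two]
    exact Nat.mul_dvd_mul_left 2 h
  have hpN₁ : P.p ∣ N₁ := by
    rw [hN₁] at hpN
    rcases (Nat.Prime.dvd_mul P.pp).mp hpN with h | h
    · exfalso
      have := (Nat.prime_dvd_prime_iff_eq P.pp Nat.prime_two).mp h
      omega
    · exact h
  have hcond₁ : P.IsConductorLevel N₁ := hcond.of_dvd hN₁N hN₁pos
  obtain ⟨f, W, 𝔪, hf, hW, h𝔪, hp𝔪, hcong⟩ := hmod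
  obtain ⟨f₀, hf₀, hf₀q⟩ := exists_eigenform_of_level_eq hN₁ f hf
  by_cases ha2 : qCoeff f 2 ^ 2 = 1
  · -- `a_2 = ± 1`: keep the level even
    obtain ⟨m, hm⟩ := hpN₁
    have hN₁' : N₁ = m * P.p := by rw [hm, mul_comm]
    have hmN₁ : m ∣ N₁ := ⟨P.p, hN₁'⟩
    have hmN : m ∣ N := hmN₁.trans hN₁N
    have hmpos : 0 < m := by
      rcases Nat.eq_zero_or_pos m with h | h
      · exfalso; rw [hm, h, mul_zero] at hN₁pos; exact lt_irrefl 0 hN₁pos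
      · exact h
    have hmodd : ¬ 2 ∣ m := fun h => hN₁odd (h.trans hmN₁)
    have hmsq : Squarefree m := hcond.squarefree.squarefree_of_dvd hmN
    have hpm : ¬ P.p ∣ m := by
      intro h
      apply hcond₁.sq_not_dvd P.pp
      rw [hN₁', pow_two]
      exact Nat.mul_dvd_mul_right h P.p
    -- the eigenvalue `α = ± 1`
    obtain ⟨α, hα, hα2⟩ : ∃ α : integralClosure ℤ ℂ, (α : ℂ) = qCoeff f 2 ∧ α ^ 2 = 1 := by
      have h1 : (qCoeff f 2 - 1) * (qCoeff f 2 + 1) = 0 := by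
        have : (qCoeff f 2 - 1) * (qCoeff f 2 + 1) = qCoeff f 2 ^ 2 - 1 := by ring
        rw [this, ha2, sub_self]
      rcases mul_eq_zero.mp h1 with h | h
      · exact ⟨1, by rw [sub_eq_zero] at h; rw [h]; rfl, one_pow 2⟩
      · refine ⟨-1, ?_, by ring⟩
        have : qCoeff f 2 = -1 := eq_neg_of_add_eq_zero_left h
        rw [this]; push_cast; rfl
    have hα𝔪 : α ∉ 𝔪 := by
      intro h
      apply h𝔪.ne_top
      rw [Ideal.eq_top_iff_one, ← hα2, pow_two]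
      exact 𝔪.mul_mem_left _ h
    -- go up to level 4 m p
    obtain ⟨f₁, hf₁, hf₁q⟩ := hIncl N hcond.pos ⟨N₁, hN₁⟩ f hf
    have hlev : 2 * N = 4 * m * P.p := by rw [hN₁, hN₁']; ring
    obtain ⟨f₂, hf₂, hf₂q⟩ := exists_eigenform_of_level_eq hlev f₁ hf₁
    have hcong₂ : CongFrey P.p W 𝔪 f₂ (4 * m * P.p) := by
      intro ℓ hℓ hgood hℓN hℓp
      have hℓN' : ¬ ℓ ∣ N := by
        intro h
        apply hℓN
        rw [← hlev]
        exact h.trans (dvd_mul_left N 2)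
      obtain ⟨a, ha, ha𝔪⟩ := hcong ℓ hℓ hgood hℓN' hℓp
      exact ⟨a, by rw [ha, hf₂q, hf₁q], ha𝔪⟩
    obtain ⟨g, 𝔪', α', hg, h𝔪', hp𝔪', hcongg, hα', hαα', -⟩ :=
      hMain P m hmpos hmodd hmsq hpm (fun q hq hqm => hcond.support q hq (hqm.trans hmN))
        (hcond.p_dvd_abc hpN) hirr f₂ W 𝔪 α hf₂ hW h𝔪 hp𝔪 hcong₂ (by rw [hα, hf₂q, hf₁q])
    have hα'𝔪 : α' ∉ 𝔪' := hαα' hα𝔪
    obtain ⟨h, hh, hhq⟩ := hLow m hmpos g hg (by rw [← hα']; exact coe_ne_zero_of_not_mem hα'𝔪)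
    have h2mN : 2 * m ∣ N := ⟨P.p, by rw [hN₁, hN₁']; ring⟩
    have hp2m : ¬ P.p ∣ 2 * m := by
      intro h
      rcases (Nat.Prime.dvd_mul P.pp).mp h with h | h
      · have := (Nat.prime_dvd_prime_iff_eq P.pp Nat.prime_two).mp h
        omega
      · exact hpm h
    refine ⟨2 * m, h2mN, hp2m, h, W, 𝔪', hh, hW, h𝔪', hp𝔪', ?_⟩
    intro ℓ hℓ hgood hℓm hℓp
    have hℓ2 : ℓ ≠ 2 := by
      rintro rfl
      exact hℓm (dvd_mul_right 2 m)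
    have hℓm' : ¬ ℓ ∣ m := fun h => hℓm (h.trans (dvd_mul_left m 2))
    obtain ⟨a, ha, ha𝔪⟩ := hcongg ℓ hℓ hgood (not_dvd_four_mul hℓ hℓ2 hℓm') hℓp
    exact ⟨a, by rw [ha, hhq], ha𝔪⟩
  · -- `a_2² ≠ 1`: the eigensystem is 2-old, pass to the odd level `N₁`
    obtain ⟨g, hg, hgq⟩ := hOld N₁ hN₁pos hN₁odd f₀ hf₀ (by rw [hf₀q]; exact ha2)
    have hmod₁ : P.ModularRepOfLevel N₁ := by
      refine ⟨g, W, 𝔪, hg, hW, h𝔪, hp𝔪, ?_⟩
      intro ℓ hℓ hgood hℓN₁ hℓp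
      have hℓ2 : ℓ ≠ 2 := ne_two_of_good hBad hW hgood
      have hℓN : ¬ ℓ ∣ N := by rw [hN₁]; exact not_dvd_two_mul hℓ hℓ2 hℓN₁
      obtain ⟨a, ha, ha𝔪⟩ := hcong ℓ hℓ hgood hℓN hℓp
      exact ⟨a, by rw [ha, hgq ℓ hℓ (by rw [← hN₁]; exact hℓN), hf₀q], ha𝔪⟩
    obtain ⟨M, hMN₁, hpM, hM⟩ :=
      s44_odd hBad hOld hLow hStab hMain P hcond₁ hpN₁ hN₁odd hirr hmod₁
    exact ⟨M, hMN₁.trans hN₁N, hpM, hM⟩

end Fermat.Agent.T1B.Top68
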