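/-
T1B / GLOBAL44 (helper68): the polynomial test lemma.

For `α ∈ Z̄ := integralClosure ℤ ℂ`, a maximal ideal `𝔪 ∋ p` and finitely many integers `s` with
`α - s ∉ 𝔪` there is `c ∈ ℤ[X]` with `c(α) ∈ 𝔪` and `p ∤ c(s)` for all these `s`.  Conversely, if
`c(α') ∈ 𝔪'` and `p ∤ c(s)` then `α' - s ∉ 𝔪'`.  This is how the `U_2`-eigenvalue is carried through
the geometry: only through the ideal `{c ∈ ℤ[X] | c(α) ∈ 𝔪}`.
-/
import Mathlib

set_option autoImplicit false

open Polynomial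

namespace Fermat.Agent.T1B.Top68

/-- An integer in a maximal ideal containing `p` is divisible by `p`. -/
theorem dvd_of_intCast_mem {𝔪 : Ideal (integralClosure ℤ ℂ)} (h𝔪 : 𝔪.IsMaximal) {p : ℕ}
    (hp : p.Prime) (hp𝔪 : (p : integralClosure ℤ ℂ) ∈ 𝔪) {n : ℤ}
    (hn : (n : integralClosure ℤ ℂ) ∈ 𝔪) : (p : ℤ) ∣ n := by
  by_contra h
  have hirr : Irreducible (p : ℤ) := (Nat.prime_iff_prime_int.mp hp).irreducible
  obtain ⟨u, v, huv⟩ := (Irreducible.coprime_iff_not_dvd hirr).mpr h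
  apply h𝔪.ne_top
  rw [Ideal.eq_top_iff_one]
  have : ((u * (p : ℤ) + v * n : ℤ) : integralClosure ℤ ℂ) ∈ 𝔪 := by
    push_cast
    exact 𝔪.add_mem (𝔪.mul_mem_left _ hp𝔪) (𝔪.mul_mem_left _ hn)
  rw [huv] at this
  simpa using this

/-- If `c(α') ∈ 𝔪'` and `p ∤ c(s)` then `α' - s ∉ 𝔪'`. -/
theorem sub_intCast_not_mem {𝔪 : Ideal (integralClosure ℤ ℂ)} (h𝔪 : 𝔪.IsMaximal) {p : ℕ}
    (hp : p.Prime) (hp𝔪 : (p : integralClosure ℤ ℂ) ∈ 𝔪) {α : integralClosure ℤ ℂ}
    {c : Polynomial ℤ} (hc : Polynomial.aeval α c ∈ 𝔪) {s : ℤ} (hs : ¬ (p : ℤ) ∣ c.eval s) :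
    α - (s : integralClosure ℤ ℂ) ∉ 𝔪 := by
  intro hα
  apply hs
  apply dvd_of_intCast_mem h𝔪 hp hp𝔪
  have h1 : Polynomial.aeval α c - ((c.eval s : ℤ) : integralClosure ℤ ℂ) ∈ 𝔪 := by
    have h2 : ((c.eval s : ℤ) : integralClosure ℤ ℂ) =
        Polynomial.aeval (s : integralClosure ℤ ℂ) c := by
      rw [Polynomial.aeval_def, Polynomial.eval₂_at_intCast]
      simp
    rw [h2, Polynomial.aeval_def, Polynomial.aeval_def, Polynomial.eval₂_eq_eval_map,
      Polynomial.eval₂_eq_eval_map]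
    obtain ⟨d, hd⟩ := Polynomial.sub_dvd_eval_sub α (s : integralClosure ℤ ℂ)
      (c.map (algebraMap ℤ (integralClosure ℤ ℂ)))
    rw [hd]
    exact 𝔪.mul_mem_right _ hα
  have h3 := 𝔪.sub_mem hc h1
  simpa using h3

section Field

variable {k : Type*} [Field k] {p : ℕ} [hp : Fact p.Prime] [CharP k p]

/-- Over `𝔽_p`: a nonzero polynomial vanishing at `a ∈ k` can be replaced by one not vanishing at
finitely many points of `𝔽_p` different from `a`. -/
theorem exists_poly_zmod (a : k) (S : Finset (ZMod p))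
    (hS : ∀ s ∈ S, a ≠ ZMod.castHom (dvd_refl p) k s) :
    ∀ (n : ℕ) (c : Polynomial (ZMod p)), c ≠ 0 → c.natDegree ≤ n →
      Polynomial.eval₂ (ZMod.castHom (dvd_refl p) k) a c = 0 →
      ∃ d : Polynomial (ZMod p), Polynomial.eval₂ (ZMod.castHom (dvd_refl p) k) a d = 0 ∧
        ∀ s ∈ S, d.eval s ≠ 0 := by
  intro n
  induction n with
  | zero =>
    intro c hc0 hdeg hev
    exfalso
    rw [Nat.le_zero] at hdeg
    obtain ⟨r, hr⟩ := Polynomial.natDegree_eq_zero.mp hdeg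
    rw [← hr, Polynomial.eval₂_C] at hev
    have hr0 : r = 0 := by
      have hinj : Function.Injective (ZMod.castHom (dvd_refl p) k) := RingHom.injective _
      exact hinj (by rw [hev, map_zero])
    apply hc0
    rw [← hr, hr0, Polynomial.C_0]
  | succ n ih =>
    intro c hc0 hdeg hev
    by_cases hall : ∃ s ∈ S, c.eval s = 0
    · obtain ⟨s, hsS, hs⟩ := hall
      obtain ⟨d, hd⟩ := Polynomial.dvd_iff_isRoot.mpr hs
      have hd0 : d ≠ 0 := by
        rintro rfl
        apply hc0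
        rw [hd, mul_zero]
      have hdeg' : d.natDegree ≤ n := by
        have h1 : c.natDegree = (X - C s).natDegree + d.natDegree := by
          rw [hd]
          exact Polynomial.natDegree_mul (Polynomial.X_sub_C_ne_zero s) hd0
        rw [Polynomial.natDegree_X_sub_C] at h1
        omega
      have hev' : Polynomial.eval₂ (ZMod.castHom (dvd_refl p) k) a d = 0 := by
        rw [hd, Polynomial.eval₂_mul, Polynomial.eval₂_sub, Polynomial.eval₂_X,
          Polynomial.eval₂_C] at hev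
        rcases mul_eq_zero.mp hev with h | h
        · exact absurd (sub_eq_zero.mp h) (hS s hsS)
        · exact h
      exact ih d hd0 hdeg' hev'
    · exact ⟨c, hev, fun s hsS h => hall ⟨s, hsS, h⟩⟩

end Field

/-- **The polynomial test lemma.** -/
theorem exists_poly_test {𝔪 : Ideal (integralClosure ℤ ℂ)} (h𝔪 : 𝔪.IsMaximal) {p : ℕ}
    (hp : p.Prime) (hp𝔪 : (p : integralClosure ℤ ℂ) ∈ 𝔪) (α : integralClosure ℤ ℂ)
    (S : Finset ℤ) (hS : ∀ s ∈ S, α - (s : integralClosure ℤ ℂ) ∉ 𝔪) :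
    ∃ c : Polynomial ℤ, Polynomial.aeval α c ∈ 𝔪 ∧ ∀ s ∈ S, ¬ (p : ℤ) ∣ c.eval s := by
  classical
  have : Fact p.Prime := ⟨hp⟩
  let _ : Field (integralClosure ℤ ℂ ⧸ 𝔪) := Ideal.Quotient.field 𝔪
  let φ : integralClosure ℤ ℂ →+* (integralClosure ℤ ℂ ⧸ 𝔪) := Ideal.Quotient.mk 𝔪
  have : CharP (integralClosure ℤ ℂ ⧸ 𝔪) p := by
    rw [CharP.charP_iff_prime_eq_zero hp]
    have : φ (p : integralClosure ℤ ℂ) = 0 := Ideal.Quotient.eq_zero_iff_mem.mpr hp𝔪
    simpa using this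
  let ι : ZMod p →+* (integralClosure ℤ ℂ ⧸ 𝔪) := ZMod.castHom (dvd_refl p) _
  have hιint : ι.comp (Int.castRingHom (ZMod p)) = Int.castRingHom _ := RingHom.ext_int _ _
  have hφint : φ.comp (algebraMap ℤ (integralClosure ℤ ℂ)) = Int.castRingHom _ :=
    RingHom.ext_int _ _
  -- evaluation at `φ α` of the reduction equals the reduction of the evaluation
  have hev : ∀ c : Polynomial ℤ,
      Polynomial.eval₂ ι (φ α) (c.map (Int.castRingHom (ZMod p))) = φ (Polynomial.aeval α c) := by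
    intro c
    rw [Polynomial.eval₂_map, hιint, Polynomial.aeval_def, Polynomial.hom_eval₂, hφint]
  -- an integral equation for `α`
  obtain ⟨μ, hμmonic, hμ⟩ : IsIntegral ℤ α := Algebra.IsIntegral.isIntegral α
  have hμ' : Polynomial.aeval α μ = 0 := by rw [Polynomial.aeval_def]; exact hμ
  set μbar := μ.map (Int.castRingHom (ZMod p)) with hμbar
  have hμbar0 : μbar ≠ 0 := (hμmonic.map _).ne_zero
  have hμev : Polynomial.eval₂ ι (φ α) μbar = 0 := by rw [hev, hμ', map_zero]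
  have hS' : ∀ s ∈ S.image (Int.castRingHom (ZMod p)), φ α ≠ ι s := by
    intro s hs
    obtain ⟨t, htS, rfl⟩ := Finset.mem_image.mp hs
    intro h
    apply hS t htS
    rw [← Ideal.Quotient.eq_zero_iff_mem]
    show φ (α - (t : integralClosure ℤ ℂ)) = 0
    rw [map_sub, h, sub_eq_zero]
    have : ι ((Int.castRingHom (ZMod p)) t) = (Int.castRingHom _) t := by
      rw [← hιint]; rfl
    rw [this]
    simp
  obtain ⟨dbar, hdev, hdS⟩ := exists_poly_zmod (φ α) (S.image (Int.castRingHom (ZMod p))) hS'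
    μbar.natDegree μbar hμbar0 le_rfl hμev
  obtain ⟨d, hd⟩ := Polynomial.map_surjective (Int.castRingHom (ZMod p))
    (ZMod.intCast_surjective) dbar
  refine ⟨d, ?_, ?_⟩
  · rw [← Ideal.Quotient.eq_zero_iff_mem]
    show φ (Polynomial.aeval α d) = 0
    rw [← hev, hd, hdev]
  · intro s hsS hdvd
    apply hdS ((Int.castRingHom (ZMod p)) s) (Finset.mem_image_of_mem _ hsS)
    rw [← hd, Polynomial.eval_map, Polynomial.eval₂_at_apply]
    exact (ZMod.intCast_zmod_eq_zero_iff_dvd _ p).mpr hdvd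

end Fermat.Agent.T1B.Top68
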