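/-
T1B / GLOBAL44 (helper68): second-level decomposition of `MAIN44` (see `Top68/Iface.lean`).

  MAIN44  ⇐  EMBED44 U + LOCAL44 U Sp + LIFT0 U + LIFTC Sp               (`main44_of_props`)

for an arbitrary family `U` of `U_2`-operators on the `J₀(N')(ℚ̄)` and an arbitrary predicate `Sp` ("occurrence in the special fibre at level `4m`", the contract
between the local team and G4).  Everything is stated on the Prelude objects
`ModularCurve.JZero N` (= `Pic⁰` of the function field of `X₀(N)` over `ℚ̄`, with its Galois action)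
and `ModularCurve.heckeOperatorBar N ℓ` (`ℓ : Nat.Primes`), and on
`E[p] = Submodule.torsionBy ℤ (P.freyCurve⁄ℚ̄).Point P.p`.

* `Good W L ℓ`            : `ℓ` prime, good for `W`, `ℓ ∤ L`.
* `OccSub N' p good a C`  : the subgroup of `x ∈ J₀(N')(ℚ̄)[p]` with `T_ℓ x = a_ℓ x` for all good `ℓ` and
                            `c(U_2) x = 0` for all `c ∈ C ⊆ ℤ[X]`.  The `U_2`-eigenvalue `α` of the form
                            is carried ONLY through the ideal `C = {c | c(α) ∈ 𝔪}`, so no extension of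
                            scalars `𝔽_p → k` is needed on the geometric side.
* `EigenOcc L₀ p good a C`: there is a normalised eigenform of level `L₀`, a maximal ideal `𝔪' ∋ p`
                            with `a_ℓ(g) ≡ a_ℓ mod 𝔪'` for good `ℓ` and `c(a_2(g)) ∈ 𝔪'` for `c ∈ C`.
* `EMBED44` (G1+G2, BLR)  : `E[p] ↪ J₀(4mp)(ℚ̄)`, Galois-equivariantly, with image in `OccSub`.
* `LOCAL44 Sp` (local)    : such an embedding gives a nonzero element of `OccSub` at level `4m`, or `Sp`.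
* `LIFT0` (G3)            : a nonzero element of `OccSub` at level `L₀` gives `EigenOcc` (Kummer
                            comparison incl. `U_2` + Deligne–Serre lifting on the lattice).
* `LIFTC Sp` (G4)         : `Sp` gives `EigenOcc`.
-/
import Mathlib
import Fermat.Prelude.Def_EllipticCurve_FrobeniusTrace
import Fermat.Prelude.Def_ModularCurve_HeckeModule
import Fermat.Agent.T1B.Top68.Iface
import Fermat.Agent.T1B.Top68.PolyTest

set_option autoImplicit false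
open WeierstrassCurve WeierstrassCurve.Affine WeierstrassCurve.Affine.Point
open scoped WeierstrassCurve.Affine
open CuspForm ModularFormClass CongruenceSubgroup ModularCurve

noncomputable section

namespace Fermat.Agent.T1B.Top68

/-- `E[p](ℚ̄)` for the Frey curve. -/
abbrev FreyTors (P : FreyPackage) : Type :=
  Submodule.torsionBy ℤ ((P.freyCurve)⁄(AlgebraicClosure ℚ)).Point P.p

/-- `ℓ` is a prime of good reduction for `W` not dividing `L`. -/
def Good (W : WeierstrassCurve ℤ) (L ℓ : ℕ) : Prop :=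
  ℓ.Prime ∧ W.IsGoodPrimeFor ℓ ∧ ¬ ℓ ∣ L

/-- The type of a family of `U_2`-operators on the `J₀(N')(ℚ̄)`.  All Props below are parametrised
by such a family `U`: the Prelude's `heckeOperatorBar N' ⟨2, _⟩` is `α_* β^*`, which for `2 ∣ N'` is the
TRANSPOSE of the operator matching `U_2` on `q`-expansions; the owner of EMBED44 (helper83) defines
`heckeUBar N' 2 = β_* α^*` and the whole chain EMBED44 / LOCAL44 / LIFT0 has to use the same `U`. -/
abbrev UFamily : Type := (N' : ℕ) → [NeZero N'] → Module.End ℤ (JZero N')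

/-- The Prelude's operator at the prime `2` (`α_* β^*`). -/
def heckeTwo : UFamily := fun N' _ => heckeOperatorBar N' ⟨2, Nat.prime_two⟩

/-- The occurrence subgroup: `x ∈ J₀(N')(ℚ̄)[p]`, `T_ℓ x = a_ℓ x` (good `ℓ`), `c(U_2) x = 0` (`c ∈ C`). -/
def OccSub (U : UFamily) (N' p : ℕ) [NeZero N'] (good : ℕ → Prop) (a : ℕ → ℤ) (C : Set (Polynomial ℤ)) :
    AddSubgroup (JZero N') where
  carrier := {x | (p : ℤ) • x = 0 ∧ (∀ ℓ : Nat.Primes, good ℓ → heckeOperatorBar N' ℓ x = a ℓ • x) ∧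
    ∀ c ∈ C, Polynomial.aeval (U N') c x = 0}
  zero_mem' := ⟨zsmul_zero _, fun ℓ _ => by rw [_root_.map_zero, zsmul_zero],
    fun c _ => _root_.map_zero _⟩
  add_mem' := by
    rintro x y ⟨hx1, hx2, hx3⟩ ⟨hy1, hy2, hy3⟩
    refine ⟨by rw [zsmul_add, hx1, hy1, add_zero], fun ℓ hℓ => ?_, fun c hc => ?_⟩
    · rw [_root_.map_add, hx2 ℓ hℓ, hy2 ℓ hℓ, zsmul_add]
    · rw [_root_.map_add, hx3 c hc, hy3 c hc, add_zero]
  neg_mem' := by
    rintro x ⟨hx1, hx2, hx3⟩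
    refine ⟨by rw [zsmul_neg, hx1, _root_.neg_zero], fun ℓ hℓ => ?_, fun c hc => ?_⟩
    · rw [_root_.map_neg, hx2 ℓ hℓ, zsmul_neg]
    · rw [_root_.map_neg, hx3 c hc, _root_.neg_zero]

theorem mem_occSub {U : UFamily} {N' p : ℕ} [NeZero N'] {good : ℕ → Prop} {a : ℕ → ℤ} {C : Set (Polynomial ℤ)}
    {x : JZero N'} : x ∈ OccSub U N' p good a C ↔
      (p : ℤ) • x = 0 ∧ (∀ ℓ : Nat.Primes, good ℓ → heckeOperatorBar N' ℓ x = a ℓ • x) ∧
        ∀ c ∈ C, Polynomial.aeval (U N') c x = 0 :=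
  Iff.rfl

/-- The eigensystem `(a_ℓ)_{good ℓ}`, `C` occurs for an eigenform of level `L₀`. -/
def EigenOcc (L₀ p : ℕ) (good : ℕ → Prop) (a : ℕ → ℤ) (C : Set (Polynomial ℤ)) : Prop :=
  ∃ (g : CuspForm (Gamma0 L₀) 2) (𝔪' : Ideal (integralClosure ℤ ℂ)) (α' : integralClosure ℤ ℂ),
    g.IsNormalizedEigenform ∧ 𝔪'.IsMaximal ∧ (p : integralClosure ℤ ℂ) ∈ 𝔪' ∧
      (∀ ℓ : ℕ, good ℓ → ∃ b : integralClosure ℤ ℂ, (b : ℂ) = qCoeff g ℓ ∧
        b - ((a ℓ : ℤ) : integralClosure ℤ ℂ) ∈ 𝔪') ∧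
      (α' : ℂ) = qCoeff g 2 ∧ ∀ c ∈ C, Polynomial.aeval α' c ∈ 𝔪'

/-- The hypotheses on `(P, m)` shared by all Props: `m` odd squarefree prime to `p`, supported on
`abc`, `p ∣ abc`, `E[p]` irreducible. -/
structure Hyp (P : FreyPackage) (m : ℕ) : Prop where
  pos : 0 < m
  odd : ¬ 2 ∣ m
  sqfree : Squarefree m
  not_dvd : ¬ P.p ∣ m
  support : ∀ q : ℕ, q.Prime → q ∣ m → (q : ℤ) ∣ P.a * P.b * P.c
  p_dvd : (P.p : ℤ) ∣ P.a * P.b * P.c
  irr : GaloisRepIsIrreducible (K := AlgebraicClosure ℚ) ℚ P.freyCurve P.p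

/-- A Galois-equivariant embedding `E[p] ↪ J₀(L)(ℚ̄)` with image in the occurrence subgroup. -/
def HasEmbedding (U : UFamily) (P : FreyPackage) (L : ℕ) [NeZero L] (W : WeierstrassCurve ℤ)
    (C : Set (Polynomial ℤ)) : Prop :=
  ∃ ι : FreyTors P →+ JZero L, Function.Injective ι ∧
    (∀ (σ : AlgebraicClosure ℚ ≃ₐ[ℚ] AlgebraicClosure ℚ) (x : FreyTors P), ι (σ • x) = σ • ι x) ∧
    ∀ x, ι x ∈ OccSub U L P.p (Good W L) (fun ℓ => W.apOfModel ℓ) C

/-- **EMBED44** (G1 + G2): Brauer–Nesbitt + Boston–Lenstra–Ribet. -/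
def EMBED44 (U : UFamily) : Prop :=
  ∀ (P : FreyPackage) (m : ℕ) [NeZero (4 * m * P.p)], Hyp P m →
    ∀ (f : CuspForm (Gamma0 (4 * m * P.p)) 2) (W : WeierstrassCurve ℤ)
      (𝔪 : Ideal (integralClosure ℤ ℂ)) (α : integralClosure ℤ ℂ),
      f.IsNormalizedEigenform → W.IsIntegralModelOf P.freyCurve → 𝔪.IsMaximal →
      (P.p : integralClosure ℤ ℂ) ∈ 𝔪 → CongFrey P.p W 𝔪 f (4 * m * P.p) →
      (α : ℂ) = qCoeff f 2 →
      HasEmbedding U P (4 * m * P.p) W {c | Polynomial.aeval α c ∈ 𝔪}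

/-- **LOCAL44** (the local team): level lowering at `p` on `J₀`. -/
def LOCAL44 (U : UFamily) (Sp : FreyPackage → ℕ → WeierstrassCurve ℤ → Set (Polynomial ℤ) → Prop) : Prop :=
  ∀ (P : FreyPackage) (m : ℕ) [NeZero (4 * m * P.p)] [NeZero (4 * m)], Hyp P m →
    ∀ (W : WeierstrassCurve ℤ), W.IsIntegralModelOf P.freyCurve →
    ∀ C : Set (Polynomial ℤ), HasEmbedding U P (4 * m * P.p) W C →
      (∃ x ∈ OccSub U (4 * m) P.p (Good W (4 * m * P.p)) (fun ℓ => W.apOfModel ℓ) C, x ≠ 0) ∨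
        Sp P m W C

/-- **LIFT0** (G3): occurrence in `J₀(L₀)(ℚ̄)[p]` ⇒ eigenform of level `L₀`. -/
def LIFT0 (U : UFamily) : Prop :=
  ∀ (L₀ p : ℕ) [NeZero L₀], p.Prime → ¬ p ∣ L₀ → 2 ∣ L₀ →
    ∀ (good : ℕ → Prop) (a : ℕ → ℤ) (C : Set (Polynomial ℤ)),
      (∀ ℓ, good ℓ → ℓ.Prime ∧ ¬ ℓ ∣ L₀ ∧ ℓ ≠ p) →
      (∃ x ∈ OccSub U L₀ p good a C, x ≠ 0) → EigenOcc L₀ p good a C

/-- **LIFTC** (G4): occurrence in the special fibre ⇒ eigenform of level `4m`. -/
def LIFTC (Sp : FreyPackage → ℕ → WeierstrassCurve ℤ → Set (Polynomial ℤ) → Prop) : Prop :=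
  ∀ (P : FreyPackage) (m : ℕ), Hyp P m →
    ∀ (W : WeierstrassCurve ℤ), W.IsIntegralModelOf P.freyCurve →
    ∀ C : Set (Polynomial ℤ), Sp P m W C →
      EigenOcc (4 * m) P.p (Good W (4 * m * P.p)) (fun ℓ => W.apOfModel ℓ) C

/-- **MAIN44 from the second-level Props.** -/
theorem main44_of_props (U : UFamily)
    (Sp : FreyPackage → ℕ → WeierstrassCurve ℤ → Set (Polynomial ℤ) → Prop)
    (hE : EMBED44 U) (hL : LOCAL44 U Sp) (h0 : LIFT0 U) (hC : LIFTC Sp) : MAIN44 := by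
  intro P m hm hodd hsq hpm hsupp hpabc hirr f W 𝔪 α hf hW h𝔪 hp𝔪 hcong hα
  have hyp : Hyp P m := ⟨hm, hodd, hsq, hpm, hsupp, hpabc, hirr⟩
  have hp5 := P.hp5
  have : NeZero (4 * m) := ⟨by omega⟩
  have : NeZero (4 * m * P.p) := ⟨Nat.mul_ne_zero (by omega) P.hp0⟩
  set C : Set (Polynomial ℤ) := {c | Polynomial.aeval α c ∈ 𝔪} with hCdef
  have hemb := hE P m hyp f W 𝔪 α hf hW h𝔪 hp𝔪 hcong hα
  -- the occurrence at level `4m`
  have hocc : EigenOcc (4 * m) P.p (Good W (4 * m * P.p)) (fun ℓ => W.apOfModel ℓ) C := by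
    rcases hL P m hyp W hW C hemb with h | h
    · refine h0 (4 * m) P.p P.pp ?_ ⟨2 * m, by ring⟩ _ _ C ?_ h
      · intro h4
        rcases (Nat.Prime.dvd_mul P.pp).mp h4 with h' | h'
        · have : P.p ≤ 4 := Nat.le_of_dvd (by norm_num) h'
          omega
        · exact hpm h'
      · rintro ℓ ⟨hℓ, -, hℓL⟩
        refine ⟨hℓ, fun h' => hℓL (h'.trans (dvd_mul_right _ _)), ?_⟩
        rintro rfl
        exact hℓL (dvd_mul_left _ _)
    · exact hC P m hyp W hW C h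
  obtain ⟨g, 𝔪', α', hg, h𝔪', hp𝔪', hgood, hα', hCα'⟩ := hocc
  refine ⟨g, 𝔪', α', hg, h𝔪', hp𝔪', ?_, hα', ?_, ?_⟩
  · -- the congruence
    intro ℓ hℓ hgoodℓ hℓ4m hℓp
    have hℓL : ¬ ℓ ∣ 4 * m * P.p := by
      intro h
      rcases (Nat.Prime.dvd_mul hℓ).mp h with h' | h'
      · exact hℓ4m h'
      · exact hℓp ((Nat.prime_dvd_prime_iff_eq hℓ P.pp).mp h')
    exact hgood ℓ ⟨hℓ, hgoodℓ, hℓL⟩
  · -- the test `α ∉ 𝔪`
    intro hα𝔪
    obtain ⟨c, hcα, hcS⟩ := exists_poly_test h𝔪 P.pp hp𝔪 α {0}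
      (by intro s hs; rw [Finset.mem_singleton.mp hs]; simpa using hα𝔪)
    have := sub_intCast_not_mem h𝔪' P.pp hp𝔪' (hCα' c hcα) (hcS 0 (Finset.mem_singleton_self 0))
    simpa using this
  · -- the test `α² - 1 ∉ 𝔪`
    intro hα𝔪
    have h1 : α - ((1 : ℤ) : integralClosure ℤ ℂ) ∉ 𝔪 := by
      intro h
      apply hα𝔪
      have : α ^ 2 - 1 = (α - ((1 : ℤ) : integralClosure ℤ ℂ)) * (α + 1) := by push_cast; ring
      rw [this]
      exact 𝔪.mul_mem_right _ h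
    have h2 : α - ((-1 : ℤ) : integralClosure ℤ ℂ) ∉ 𝔪 := by
      intro h
      apply hα𝔪
      have : α ^ 2 - 1 = (α - ((-1 : ℤ) : integralClosure ℤ ℂ)) * (α - 1) := by push_cast; ring
      rw [this]
      exact 𝔪.mul_mem_right _ h
    obtain ⟨c, hcα, hcS⟩ := exists_poly_test h𝔪 P.pp hp𝔪 α {1, -1}
      (by
        intro s hs
        rcases Finset.mem_insert.mp hs with rfl | hs
        · exact h1
        · rw [Finset.mem_singleton.mp hs]; exact h2)
    have h1' := sub_intCast_not_mem h𝔪' P.pp hp𝔪' (hCα' c hcα)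
      (hcS 1 (Finset.mem_insert_self _ _))
    have h2' := sub_intCast_not_mem h𝔪' P.pp hp𝔪' (hCα' c hcα)
      (hcS (-1) (Finset.mem_insert_of_mem (Finset.mem_singleton_self _)))
    intro hmem
    have hfac : α' ^ 2 - 1 = (α' - ((1 : ℤ) : integralClosure ℤ ℂ)) *
        (α' - ((-1 : ℤ) : integralClosure ℤ ℂ)) := by push_cast; ring
    rw [hfac] at hmem
    rcases (h𝔪'.isPrime.mem_or_mem hmem) with h | h
    · exact h1' h
    · exact h2' h

end Fermat.Agent.T1B.Top68
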