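/-
T1B / GLOBAL44 (helper68): the second-level Props only depend on the `U_2`-family at EVEN levels.

Several definitions of the family `U` are on main (`Degen21.UFam.uTwo`, `KumU48.heckeUFamily`,
`KumU6.heckeUBar _ 2`, `Hecke3.U2Fam`); they agree at the even levels (`KumU78/Bridge.lean`), which is
all that `EMBED44`, `LOCAL44`, `LIFT0` see (levels `4mp`, `4m`, and `L₀` with `2 ∣ L₀`).
-/
import Mathlib
import Fermat.Agent.T1B.Top68.Global

set_option autoImplicit false
open ModularCurve

noncomputable section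

namespace Fermat.Agent.T1B.Top68

theorem occSub_congr {U U' : UFamily} {N' : ℕ} [NeZero N'] (h : U N' = U' N') (p : ℕ)
    (good : ℕ → Prop) (a : ℕ → ℤ) (C : Set (Polynomial ℤ)) :
    OccSub U N' p good a C = OccSub U' N' p good a C := by
  ext x
  simp only [mem_occSub, h]

theorem hasEmbedding_congr {U U' : UFamily} {P : FreyPackage} {L : ℕ} [NeZero L]
    (h : U L = U' L) {W : WeierstrassCurve ℤ} {C : Set (Polynomial ℤ)}
    (hE : HasEmbedding U P L W C) : HasEmbedding U' P L W C := by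
  obtain ⟨ι, h1, h2, h3⟩ := hE
  refine ⟨ι, h1, h2, fun x => ?_⟩
  rw [← occSub_congr h]
  exact h3 x

/-- Two families agreeing at the even levels. -/
def EvenAgree (U U' : UFamily) : Prop :=
  ∀ (N' : ℕ) [NeZero N'], 2 ∣ N' → U N' = U' N'

theorem EvenAgree.symm {U U' : UFamily} (h : EvenAgree U U') : EvenAgree U' U :=
  fun N' _ h2 => (h N' h2).symm

theorem embed44_congr {U U' : UFamily} (h : EvenAgree U U') (hE : EMBED44 U) : EMBED44 U' := by
  intro P m _ hyp f W 𝔪 α hf hW hmax hpm hcong hα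
  exact hasEmbedding_congr (h (4 * m * P.p) ⟨2 * m * P.p, by ring⟩)
    (hE P m hyp f W 𝔪 α hf hW hmax hpm hcong hα)

theorem local44_congr {U U' : UFamily} (h : EvenAgree U U')
    {Sp : FreyPackage → ℕ → WeierstrassCurve ℤ → Set (Polynomial ℤ) → Prop}
    (hL : LOCAL44 U Sp) : LOCAL44 U' Sp := by
  intro P m _ _ hyp W hW C hemb
  have h1 : U (4 * m * P.p) = U' (4 * m * P.p) := h (4 * m * P.p) ⟨2 * m * P.p, by ring⟩
  have h2 : U (4 * m) = U' (4 * m) := h (4 * m) ⟨2 * m, by ring⟩
  rcases hL P m hyp W hW C (hasEmbedding_congr h1.symm hemb) with hx | hs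
  · left
    rw [← occSub_congr h2]
    exact hx
  · exact Or.inr hs

theorem lift0_congr {U U' : UFamily} (h : EvenAgree U U') (h0 : LIFT0 U) : LIFT0 U' := by
  intro L₀ p _ hp hpL h2 good a C hgood hx
  refine h0 L₀ p hp hpL h2 good a C hgood ?_
  rw [occSub_congr (h L₀ h2)]
  exact hx

end Fermat.Agent.T1B.Top68
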