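/-
T1B / GLOBAL44 (helper68): the concrete predicate `Sp` ("occurrence in the special fibre") and `LIFTC`.

`SpHol P m W C` : there are a valuation subring `A` of `ℚ̄` over `p` and a NONZERO Laurent series
`w ∈ κ((q))` (`κ` = residue field of `A`) which is the logarithmic derivative `dlog u` of a function
`u` of `X₀(4m)_κ` with `p ∣ div u` (`Hol13.HolLog`), which is an eigenvector of the formal Hecke
operators `T_ℓ = U_ℓ + ℓ V_ℓ` (`Hecke7.heckeT2 ℓ`) with eigenvalue `a_ℓ(E)` for every good `ℓ`, and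
which is killed by `c(U_2)` for every `c ∈ C` (`Hol13.U2End`).

This is what the local analysis (`LOCAL44`, helper66's `Local66.Assembly` with the parameters
`D := κ((q))`, `S := {w | HolLog …}`, `TD := heckeT2`, `UD := U2End`) produces in the toric /
special-fibre branch, and `liftC_spHol` turns it into `EigenOcc` from helper13's two Props
`Hol13.QEXP` (`q`-expansion principle for logarithmic differentials) and `Hol13.LIFTQ`
(Deligne–Serre lifting on the integral lattice).
-/
import Mathlib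
import Fermat.Agent.T1B.Top68.Global
import Fermat.Agent.T1B.Hol13.Iface

set_option autoImplicit false
open CuspForm ModularFormClass CongruenceSubgroup ModularCurve

noncomputable section

namespace Fermat.Agent.T1B.Top68

/-- The residue field of a valuation subring over `p` has characteristic `p`. -/
theorem charP_residueField_of_liesOverPrime {L : Type*} [Field L] (A : ValuationSubring L)
    {p : ℕ} (hp : p.Prime) (hA : A.LiesOverPrime p) :
    CharP (IsLocalRing.ResidueField ↥A) p := by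
  have hmem : (p : L) ∈ A := A.nonunits_le hA
  have hnu : (⟨(p : L), hmem⟩ : ↥A) ∈ IsLocalRing.maximalIdeal ↥A := by
    rw [IsLocalRing.mem_maximalIdeal, mem_nonunits_iff]
    intro hu
    have := (A.mem_nonunits_iff_exists_mem_maximalIdeal).1 hA
    obtain ⟨ha, hmax⟩ := this
    exact (IsLocalRing.mem_maximalIdeal _).1 hmax hu
  have hzero : ((p : ℕ) : IsLocalRing.ResidueField ↥A) = 0 := by
    have h1 : IsLocalRing.residue ↥A (⟨(p : L), hmem⟩ : ↥A) = 0 :=
      (IsLocalRing.residue_eq_zero_iff _).2 hnu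
    have h2 : (⟨(p : L), hmem⟩ : ↥A) = ((p : ℕ) : ↥A) := by
      apply Subtype.ext
      simp
    rw [h2, map_natCast] at h1
    exact h1
  have := CharP.exists (IsLocalRing.ResidueField ↥A)
  obtain ⟨q, hq⟩ := this
  have hqp : q ∣ p := (CharP.cast_eq_zero_iff (IsLocalRing.ResidueField ↥A) q p).1 hzero
  rcases (Nat.dvd_prime hp).1 hqp with h1 | h1
  · subst h1
    exact absurd rfl (CharP.char_ne_one (IsLocalRing.ResidueField ↥A) 1)
  · subst h1
    exact hq

/-- The logarithmic differentials `dlog u` with `p ∣ div u` form a subgroup of `κ((q))`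
(`dlog (u u') = dlog u + dlog u'`, `dlog u⁻¹ = - dlog u`, `dlog 1 = 0`): the subgroup `S` of
helper66's `Local66.Assembly` (`D := κ((q))`). -/
def holLogSubgroup (κ : Type*) [Field κ] (N p : ℕ) : AddSubgroup (LaurentSeries κ) where
  carrier := {w | Hol13.HolLog κ N p w}
  zero_mem' := by
    refine ⟨1, one_ne_zero, ?_, fun v => ?_⟩
    · rw [OneMemClass.coe_one, Hecke7.dlog_one]
    · rw [v.ord_one]
      exact dvd_zero _
  add_mem' := by
    rintro w w' ⟨u, hu, rfl, hv⟩ ⟨u', hu', rfl, hv'⟩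
    refine ⟨u * u', mul_ne_zero hu hu', ?_, fun v => ?_⟩
    · rw [MulMemClass.coe_mul, Hecke7.dlog_mul]
      · exact fun h => hu (Subtype.ext h)
      · exact fun h => hu' (Subtype.ext h)
    · rw [v.ord_mul hu hu']
      exact dvd_add (hv v) (hv' v)
  neg_mem' := by
    rintro w ⟨u, hu, rfl, hv⟩
    refine ⟨u⁻¹, inv_ne_zero hu, ?_, fun v => ?_⟩
    · rw [← Hecke7.dlog_inv]
      rfl
    · rw [v.ord_inv]
      exact (dvd_neg).2 (hv v)

theorem mem_holLogSubgroup {κ : Type*} [Field κ] {N p : ℕ} {w : LaurentSeries κ} :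
    w ∈ holLogSubgroup κ N p ↔ Hol13.HolLog κ N p w :=
  Iff.rfl


/-- **The special-fibre occurrence predicate**: a nonzero logarithmic differential `dlog u`
(`p ∣ div u`) on `X₀(4m)` over the residue field of a place of `ℚ̄` over `p`, with the
Hecke eigen-conditions of the Frey curve. -/
def SpHol : FreyPackage → ℕ → WeierstrassCurve ℤ → Set (Polynomial ℤ) → Prop :=
  fun P m W C =>
    ∃ A : ValuationSubring (AlgebraicClosure ℚ), A.LiesOverPrime P.p ∧
      ∃ w : LaurentSeries (IsLocalRing.ResidueField ↥A), w ≠ 0 ∧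
        Hol13.HolLog (IsLocalRing.ResidueField ↥A) (4 * m) P.p w ∧
        (∀ (ℓ : ℕ) [NeZero ℓ], Good W (4 * m * P.p) ℓ →
          Hecke7.heckeT2 ℓ w = ((W.apOfModel ℓ : ℤ) : IsLocalRing.ResidueField ↥A) • w) ∧
        ∀ c ∈ C, Polynomial.aeval (Hol13.U2End (IsLocalRing.ResidueField ↥A)) c w = 0

/-- **`LIFTC` for `SpHol`** from helper13's two Props. -/
theorem liftC_spHol (hQ : Hol13.QEXP) (hL : Hol13.LIFTQ) : LIFTC SpHol := by
  intro P m hyp W _ C hSp
  obtain ⟨A, hA, w, hw0, hol, hT, hU⟩ := hSp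
  have hm : NeZero (4 * m) := ⟨by have := hyp.pos; omega⟩
  have hchar : CharP (IsLocalRing.ResidueField ↥A) P.p :=
    charP_residueField_of_liesOverPrime A P.pp hA
  have hpN : ¬ P.p ∣ 4 * m := by
    intro h
    rcases (Nat.Prime.dvd_mul P.pp).1 h with h4 | hm'
    · have h5 := P.hp5
      have : P.p ≤ 4 := Nat.le_of_dvd (by norm_num) h4
      omega
    · exact hyp.not_dvd hm'
  have hgood : ∀ ℓ, Good W (4 * m * P.p) ℓ → ℓ.Prime ∧ ¬ ℓ ∣ 4 * m ∧ ℓ ≠ P.p := by
    intro ℓ hℓ
    refine ⟨hℓ.1, fun h => hℓ.2.2 (Dvd.dvd.mul_right h _), fun h => hℓ.2.2 ?_⟩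
    rw [h]
    exact Dvd.intro_left _ rfl
  exact Hol13.eigenOcc_of_holLog hQ hL (4 * m) P.p P.pp ⟨m, rfl⟩ hpN A hA
    (Good W (4 * m * P.p)) (fun ℓ => W.apOfModel ℓ) C hgood w hw0 hol hT hU

/-- `LOCAL44` is monotone in the special-fibre predicate. -/
theorem local44_mono (U : UFamily)
    {Sp Sp' : FreyPackage → ℕ → WeierstrassCurve ℤ → Set (Polynomial ℤ) → Prop}
    (h : ∀ P m W C, Hyp P m → Sp P m W C → Sp' P m W C) (hL : LOCAL44 U Sp) : LOCAL44 U Sp' := by
  intro P m _ _ hyp W hW C hemb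
  rcases hL P m hyp W hW C hemb with h1 | h1
  · exact Or.inl h1
  · exact Or.inr (h P m W C hyp h1)

/-- `LIFTC` is antitone in the special-fibre predicate. -/
theorem liftC_anti
    {Sp Sp' : FreyPackage → ℕ → WeierstrassCurve ℤ → Set (Polynomial ℤ) → Prop}
    (h : ∀ P m W C, Hyp P m → Sp' P m W C → Sp P m W C) (hC : LIFTC Sp) : LIFTC Sp' := by
  intro P m hyp W hW C hSp
  exact hC P m hyp W hW C (h P m W C hyp hSp)

end Fermat.Agent.T1B.Top68
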