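/-
T1B / GLOBAL44 (helper68): the parameters `(D, S, TD, UD)` of helper66's `Local66.Assembly.local44`
for the `q`-dlog detectors, and the conversion of its conclusion into `SpHol`.

For a family `Ap : ℕ → ValuationSubring ℚ̄` of places (`Ap p` over `p`):

* `holD Ap p M  := κ_p((q))`, `κ_p` the residue field of `Ap p`;
* `holS Ap p M  := holLogSubgroup κ_p M p` (logarithmic differentials `dlog u`, `p ∣ div u`, on `X₀(M)_κ`);
* `holT Ap p M ℓ := T_ℓ = U_ℓ + ℓ V_ℓ` (`Hecke7.heckeT2 ℓ`) as a `ℤ`-linear endomorphism;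
* `holU Ap p M  := U_2` (`Hol13.U2End`).

`spHol_of_exists` : the unfolded form of `Local66.Assembly.SpOf (holS …) (holT …) (holU …) P.p good a C`
gives `SpHol P m W C`; so `LOCAL44 U (SpOf …)` gives `LOCAL44 U SpHol` by `local44_mono`.
-/
import Mathlib
import Fermat.Agent.T1B.Top68.SpecialOcc

set_option autoImplicit false
open CuspForm ModularFormClass CongruenceSubgroup ModularCurve

noncomputable section

namespace Fermat.Agent.T1B.Top68

/-- `T_ℓ = U_ℓ + ℓ V_ℓ` on `κ((q))` as a `ℤ`-linear endomorphism, indexed by `Nat.Primes`. -/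
def heckeT2End (κ : Type*) [Field κ] (ℓ : Nat.Primes) : Module.End ℤ (LaurentSeries κ) :=
  haveI : NeZero (ℓ : ℕ) := ⟨ℓ.2.ne_zero⟩
  (Hecke7.Uop (R := κ) (ℓ : ℕ) + ((ℓ : ℕ) : κ) • (qExpand κ (ℓ : ℕ)).toAddMonoidHom).toIntLinearMap

theorem heckeT2End_apply (κ : Type*) [Field κ] (ℓ : Nat.Primes) [NeZero (ℓ : ℕ)]
    (w : LaurentSeries κ) : heckeT2End κ ℓ w = Hecke7.heckeT2 (ℓ : ℕ) w :=
  rfl

section Params

variable (Ap : ℕ → ValuationSubring (AlgebraicClosure ℚ))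

/-- The target of the detectors: `κ_p((q))`. -/
abbrev holD (p _M : ℕ) : Type := LaurentSeries (IsLocalRing.ResidueField ↥(Ap p))

/-- The holomorphic logarithmic differentials. -/
def holS (p M : ℕ) : AddSubgroup (holD Ap p M) :=
  holLogSubgroup (IsLocalRing.ResidueField ↥(Ap p)) M p

/-- The formal Hecke operators `T_ℓ`. -/
def holT (p M : ℕ) (ℓ : Nat.Primes) : Module.End ℤ (holD Ap p M) :=
  heckeT2End (IsLocalRing.ResidueField ↥(Ap p)) ℓ

/-- The formal operator `U_2`. -/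
def holU (p M : ℕ) : Module.End ℤ (holD Ap p M) :=
  Hol13.U2End (IsLocalRing.ResidueField ↥(Ap p))

theorem mem_holS {p M : ℕ} {w : holD Ap p M} :
    w ∈ holS Ap p M ↔ Hol13.HolLog (IsLocalRing.ResidueField ↥(Ap p)) M p w :=
  Iff.rfl

theorem holT_apply (p M : ℕ) (ℓ : Nat.Primes) [NeZero (ℓ : ℕ)] (w : holD Ap p M) :
    holT Ap p M ℓ w = Hecke7.heckeT2 (ℓ : ℕ) w :=
  rfl

theorem holU_apply (p M : ℕ) (w : holD Ap p M) :
    holU Ap p M w = Hecke7.Uop 2 w :=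
  rfl

/-- The unfolded conclusion of `Local66.Assembly.local44` (`SpOf (holS …) (holT …) (holU …) …`)
gives `SpHol`. -/
theorem spHol_of_exists (hAp : ∀ p : ℕ, p.Prime → (Ap p).LiesOverPrime p)
    (P : FreyPackage) (m : ℕ) (W : WeierstrassCurve ℤ) (C : Set (Polynomial ℤ))
    (h : ∃ g ∈ holS Ap P.p (4 * m), g ≠ 0 ∧ (P.p : ℤ) • g = 0 ∧
      (∀ ℓ : Nat.Primes, Good W (4 * m * P.p) ℓ →
        holT Ap P.p (4 * m) ℓ g = W.apOfModel ℓ • g) ∧
      ∀ c ∈ C, Polynomial.aeval (holU Ap P.p (4 * m)) c g = 0) :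
    SpHol P m W C := by
  obtain ⟨g, hgS, hg0, -, hT, hU⟩ := h
  refine ⟨Ap P.p, hAp P.p P.pp, g, hg0, hgS, ?_, hU⟩
  intro ℓ _ hℓ
  have h1 := hT ⟨ℓ, hℓ.1⟩ hℓ
  rw [Int.cast_smul_eq_zsmul]
  exact h1

end Params

end Fermat.Agent.T1B.Top68
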