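/-
T1B / TOP44 (helper68): every integral model of a Frey curve has even discriminant.

`c₄³ / Δ` is invariant under changes of variables; for the Frey curve `c₄ = A² + AB + B²` is odd
and `2⁸ Δ = (ABC)²` with `32 ∣ B`.
-/
import Mathlib
import Fermat.Agent.S06.FreyModel
import Fermat.Agent.T1B.Top68.Iface

set_option autoImplicit false

namespace Fermat.Agent.T1B.Top68

open WeierstrassCurve Fermat.Agent.S06.FreyModel

/-- `c₄(W)³ Δ(E) = Δ(W) c₄(E)³` for `E` the integral Frey model and `W` any integral model. -/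
theorem c₄_cube_mul_Δ (P : FreyPackage) (W : WeierstrassCurve ℤ)
    (hW : W.IsIntegralModelOf P.freyCurve) :
    W.c₄ ^ 3 * P.freyCurveInt.Δ = W.Δ * P.freyCurveInt.c₄ ^ 3 := by
  obtain ⟨C, hC⟩ := hW
  rw [← freyCurveInt_map P] at hC
  have h4 : ((W.c₄ : ℤ) : ℚ) = C.u⁻¹ ^ 4 * ((P.freyCurveInt.c₄ : ℤ) : ℚ) := by
    have h := congrArg WeierstrassCurve.c₄ hC
    rw [variableChange_c₄, map_c₄, map_c₄] at h
    simpa using h.symm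
  have hΔ : ((W.Δ : ℤ) : ℚ) = C.u⁻¹ ^ 12 * ((P.freyCurveInt.Δ : ℤ) : ℚ) := by
    have h := congrArg WeierstrassCurve.Δ hC
    rw [variableChange_Δ, map_Δ, map_Δ] at h
    simpa using h.symm
  have : ((W.c₄ ^ 3 * P.freyCurveInt.Δ : ℤ) : ℚ) = ((W.Δ * P.freyCurveInt.c₄ ^ 3 : ℤ) : ℚ) := by
    push_cast
    rw [h4, hΔ]
    ring
  exact_mod_cast this

theorem not_two_dvd_freyCurveInt_c₄ (P : FreyPackage) : ¬ (2 : ℤ) ∣ P.freyCurveInt.c₄ := by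
  intro h
  rw [freyCurveInt_c₄] at h
  have hB : (2 : ℤ) ∣ P.b ^ P.p := dvd_pow (two_dvd_b P) P.hp0
  have h1 : (2 : ℤ) ∣ P.a ^ P.p * P.b ^ P.p + (P.b ^ P.p) ^ 2 :=
    dvd_add (Dvd.dvd.mul_left hB _) (dvd_pow hB two_ne_zero)
  have h2 : (2 : ℤ) ∣ (P.a ^ P.p) ^ 2 := by
    have := dvd_sub h h1
    have e : (P.a ^ P.p) ^ 2 + P.a ^ P.p * P.b ^ P.p + (P.b ^ P.p) ^ 2 -
        (P.a ^ P.p * P.b ^ P.p + (P.b ^ P.p) ^ 2) = (P.a ^ P.p) ^ 2 := by ring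
    rwa [e] at this
  have hp2 : Prime (2 : ℤ) := Int.prime_two
  exact not_two_dvd_a P (hp2.dvd_of_dvd_pow (hp2.dvd_of_dvd_pow h2))

/-- **BadAtTwo.** -/
theorem badAtTwo : BadAtTwo := by
  intro P W hW
  have hkey := c₄_cube_mul_Δ P W hW
  have hΔ := freyCurveInt_Δ P
  have hp2 : Prime (2 : ℤ) := Int.prime_two
  -- `512 ∣ 256 * (W.Δ * c₄³)`
  have h1 : (256 : ℤ) * (W.Δ * P.freyCurveInt.c₄ ^ 3) =
      W.c₄ ^ 3 * ((P.a ^ P.p) ^ 2 * (P.b ^ P.p) ^ 2 * (P.c ^ P.p) ^ 2) := by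
    rw [← hkey, ← hΔ]; ring
  have h2 : (512 : ℤ) ∣ (P.b ^ P.p) ^ 2 := by
    obtain ⟨k, hk⟩ := thirtytwo_dvd_b_pow P
    exact ⟨2 * k ^ 2, by rw [hk]; ring⟩
  have h3 : (512 : ℤ) ∣ 256 * (W.Δ * P.freyCurveInt.c₄ ^ 3) := by
    rw [h1]
    exact Dvd.dvd.mul_left (Dvd.dvd.mul_right (Dvd.dvd.mul_left h2 _) _) _
  have h4 : (2 : ℤ) ∣ W.Δ * P.freyCurveInt.c₄ ^ 3 := by
    obtain ⟨k, hk⟩ := h3
    exact ⟨k, by omega⟩
  rcases hp2.dvd_or_dvd h4 with h | h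
  · exact h
  · exact absurd (hp2.dvd_of_dvd_pow h) (not_two_dvd_freyCurveInt_c₄ P)

end Fermat.Agent.T1B.Top68
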