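/-
T1B / TOP44 (helper68): discharge of the elementary Props of `Top68/Iface.lean`:
`LOWER2` (from helper50's `U2Lower50.exists_eigenform_lower`) and `INCL2` (level inclusion).
-/
import Mathlib
import Fermat.Agent.T1.U2Lower50.Eigen
import Fermat.Agent.ES.Q58.LevelIncl12
import Fermat.Agent.T1B.Top68.Iface

set_option autoImplicit false
open CuspForm ModularFormClass CongruenceSubgroup

namespace Fermat.Agent.T1B.Top68

/-- **LOWER2.** -/
theorem lower2 : LOWER2 := by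
  intro m hm g hg h2
  have : Fact (Nat.Prime 2) := ⟨Nat.prime_two⟩
  have : NeZero (4 * m) := ⟨by omega⟩
  obtain ⟨h, hh, hhq⟩ := Fermat.Agent.T1.U2Lower50.exists_eigenform_lower (p := 2) hg
    (⟨m, by ring⟩ : 2 ^ 2 ∣ 4 * m) h2
  have hlev : 4 * m / 2 = 2 * m := by omega
  obtain ⟨h', hh', hh'q⟩ := exists_eigenform_of_level_eq hlev h hh
  exact ⟨h', hh', fun n => by rw [hh'q, hhq]⟩

/-- Level inclusion `M ∣ M'` with the same prime divisors keeps normalised eigenforms. -/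
theorem exists_eigenform_levelIncl {M M' : ℕ} (hMM' : M ∣ M')
    (hprimes : ∀ ℓ : ℕ, ℓ.Prime → ℓ ∣ M' → ℓ ∣ M)
    (f : CuspForm (Gamma0 M) 2) (hf : f.IsNormalizedEigenform) :
    ∃ f' : CuspForm (Gamma0 M') 2, f'.IsNormalizedEigenform ∧ ∀ n, qCoeff f' n = qCoeff f n := by
  refine ⟨Fermat.Agent.ES.Q58.LevelIncl12.levelIncl hMM' 2 f, ⟨?_, ?_, ?_, ?_⟩, ?_⟩
  · rw [Fermat.Agent.ES.Q58.LevelIncl12.qCoeff_levelIncl]; exact hf.qCoeff_one
  · intro m n hmn
    simp only [Fermat.Agent.ES.Q58.LevelIncl12.qCoeff_levelIncl]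
    exact hf.qCoeff_mul_of_coprime m n hmn
  · intro ℓ r hℓ hℓM'
    simp only [Fermat.Agent.ES.Q58.LevelIncl12.qCoeff_levelIncl]
    exact hf.qCoeff_prime_pow_of_not_dvd ℓ r hℓ (fun h => hℓM' (h.trans hMM'))
  · intro ℓ r hℓ hℓM'
    simp only [Fermat.Agent.ES.Q58.LevelIncl12.qCoeff_levelIncl]
    exact hf.qCoeff_prime_pow_of_dvd ℓ r hℓ (hprimes ℓ hℓ hℓM')
  · intro n
    exact Fermat.Agent.ES.Q58.LevelIncl12.qCoeff_levelIncl hMM' 2 f n

/-- **INCL2.** -/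
theorem incl2 : INCL2 := by
  intro M _ h2M f hf
  refine exists_eigenform_levelIncl (dvd_mul_left M 2) ?_ f hf
  intro ℓ hℓ h
  rcases (Nat.Prime.dvd_mul hℓ).mp h with h | h
  · exact h.trans h2M
  · exact h

end Fermat.Agent.T1B.Top68
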