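/-
T1B / TOP44 (helper68): S44 from the single remaining Prop `MAIN44`.

All the other Props of `Top68/Iface.lean` are theorems:
`badAtTwo`, `lower2`, `incl2` (helper68), `old2`, `stab2` (helper21).
-/
import Fermat.Agent.T1B.Top68.BadAtTwo
import Fermat.Agent.T1B.Top68.Discharge
import Fermat.Agent.T1B.Top68.Global
import Fermat.Agent.T1B.U2Lower21.Old2

set_option autoImplicit false
open WeierstrassCurve WeierstrassCurve.Affine WeierstrassCurve.Affine.Point

namespace Fermat.Agent.T1B.Top68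

/-- **S44 from `MAIN44`.** -/
theorem s44_of_main44 (hMain : MAIN44)
    (P : FreyPackage) {N : ℕ} (hcond : P.IsConductorLevel N) (hpN : P.p ∣ N)
    (hirr : GaloisRepIsIrreducible (K := AlgebraicClosure ℚ) ℚ P.freyCurve P.p)
    (hmod : P.ModularRepOfLevel N) :
    ∃ M : ℕ, M ∣ N ∧ ¬ P.p ∣ M ∧ P.ModularRepOfLevel M :=
  s44_of_props badAtTwo Fermat.Agent.T1B.U2Lower21.Old2.old2 lower2
    Fermat.Agent.T1B.U2Lower21.Stab2.stab2 incl2 hMain P hcond hpN hirr hmod

/-- **S44 from the four second-level Props.** -/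
theorem s44_of_global (U : UFamily)
    (Sp : FreyPackage → ℕ → WeierstrassCurve ℤ → Set (Polynomial ℤ) → Prop)
    (hE : EMBED44 U) (hL : LOCAL44 U Sp) (h0 : LIFT0 U) (hC : LIFTC Sp)
    (P : FreyPackage) {N : ℕ} (hcond : P.IsConductorLevel N) (hpN : P.p ∣ N)
    (hirr : GaloisRepIsIrreducible (K := AlgebraicClosure ℚ) ℚ P.freyCurve P.p)
    (hmod : P.ModularRepOfLevel N) :
    ∃ M : ℕ, M ∣ N ∧ ¬ P.p ∣ M ∧ P.ModularRepOfLevel M :=
  s44_of_main44 (main44_of_props U Sp hE hL h0 hC) P hcond hpN hirr hmod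

end Fermat.Agent.T1B.Top68
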