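/-
T1B / TOP44 (helper68): CLOSING FILE of S44 — every remaining hypothesis is a named Prop with an owner.

On top of helper66's `Local66/Main.lean` (`s44_of_localGeom`: `MAIN44` from `EMBED44 uTwo`, `LIFT0 uTwo`,
`QEXP`, `LIFTQ` and the local geometry for a family of places `Ap`), this file

* discharges `Hol13.LIFTQ := G4DS2.liftQ` (helper2),
* fixes the place to the Prelude's `padicPlace p` (`stdPlace`, `LOCALGEOMStd`, `localGeom_stdPlace`),
* passes from `MAIN44` to the frozen statement (`Top68.s44_of_main44`):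

  frozen S44  ⇐  EMBED44 uTwo  +  LIFT0 uTwo  +  LOCALGEOMStd  +  Hol13.QEXP      (`s44_of_four_std`)

with `U := Degen21.UFam.uTwo` (`= β_* α^*` at `2`).  `LIFT0 uTwo` is discharged in `Top68/Close2.lean`
(whose import closure contains the AV/MW chapter).
-/
import Mathlib
import Fermat.Agent.T1B.Top68.S44Main
import Fermat.Agent.T1B.Top68.UCongr
import Fermat.Agent.T1B.Local66.Main
import Fermat.Agent.T1B.G4DS2.LiftQ
import Fermat.Agent.T1.LocModel46.Basic

set_option autoImplicit false
open WeierstrassCurve WeierstrassCurve.Affine WeierstrassCurve.Affine.Point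
open ModularCurve

noncomputable section

namespace Fermat.Agent.T1B.Top68

open Fermat.Agent.T1B.Degen21.UFam

open Fermat.Agent.T1B.Degen21.Level Fermat.Agent.T1B.Local66.Assembly

universe uA uE uS uR

set_option linter.checkUnivs false in
/-- **The local contract** for a family of places `Ap`: for all `(p, m)` in the range of `LOCAL44` the
local geometry of `J₀(4mp)` at `p` exists, with the detectors landing in `κ_p((q))` (`holD`),
holomorphic on `J⁰` (`holS`), equivariant for `T_ℓ` (`holT`) and `U_2` (`holU`). -/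
def LOCALGEOM (Ap : ℕ → ValuationSubring (AlgebraicClosure ℚ)) : Prop :=
  ∀ (p : ℕ) [Fact p.Prime] [NeZero p] (m : ℕ) [NeZero (4 * m * p)] [NeZero (4 * m)],
    5 ≤ p → 0 < m → ¬ 2 ∣ m → Squarefree m → ¬ p ∣ m →
    Nonempty (LocalGeom.{uA, 0, uE, uS, uR} p (4 * m * p) (4 * m)
      (piOne (4 * m) p Fact.out) (piTwo (4 * m) p Fact.out)
      (uTwo (4 * m * p)) (holS Ap p (4 * m)) (holT Ap p (4 * m)) (holU Ap p (4 * m)))

/-! ### The standard place over `p` -/

open Classical in
/-- The standard place of `ℚ̄` over `p`: the Prelude's `padicPlace p` (total in `p`). -/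
def stdPlace (p : ℕ) : ValuationSubring (AlgebraicClosure ℚ) :=
  if h : p.Prime then @padicPlace p ⟨h⟩ else ⊤

theorem stdPlace_eq (p : ℕ) [hp : Fact p.Prime] : stdPlace p = padicPlace p := by
  unfold stdPlace
  rw [dif_pos hp.out]

theorem stdPlace_liesOverPrime (p : ℕ) (hp : p.Prime) : (stdPlace p).LiesOverPrime p := by
  have : Fact p.Prime := ⟨hp⟩
  rw [stdPlace_eq]
  exact Fermat.Agent.T1.LocModel46.liesOverPrime p

set_option linter.checkUnivs false in
/-- **The local contract at the Prelude's place** `padicPlace p` (the form the providers prove):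
`κ := ` residue field of `padicPlace p`, `D := κ((q))`, `S := holLogSubgroup κ (4m) p`,
`TD := heckeT2End κ`, `UD := Hol13.U2End κ`. -/
def LOCALGEOMStd : Prop :=
  ∀ (p : ℕ) [Fact p.Prime] [NeZero p] (m : ℕ) [NeZero (4 * m * p)] [NeZero (4 * m)],
    5 ≤ p → 0 < m → ¬ 2 ∣ m → Squarefree m → ¬ p ∣ m →
    Nonempty (Fermat.Agent.T1B.Local66.Assembly.LocalGeom.{uA, 0, uE, uS, uR} p (4 * m * p) (4 * m)
      (Fermat.Agent.T1B.Degen21.Level.piOne (4 * m) p Fact.out)
      (Fermat.Agent.T1B.Degen21.Level.piTwo (4 * m) p Fact.out)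
      (uTwo (4 * m * p))
      (holLogSubgroup (IsLocalRing.ResidueField ↥(padicPlace p)) (4 * m) p)
      (heckeT2End (IsLocalRing.ResidueField ↥(padicPlace p)))
      (Hol13.U2End (IsLocalRing.ResidueField ↥(padicPlace p))))

/-- The contract at `padicPlace p` gives the contract for the total family `stdPlace`. -/
theorem localGeom_stdPlace (h : LOCALGEOMStd.{uA, uE, uS, uR}) :
    LOCALGEOM.{uA, uE, uS, uR} stdPlace := by
  intro p _ _ m _ _ hp5 hm hodd hsq hpm
  have key : ∀ A : ValuationSubring (AlgebraicClosure ℚ), A = padicPlace p →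
      Nonempty (Fermat.Agent.T1B.Local66.Assembly.LocalGeom.{uA, 0, uE, uS, uR} p (4 * m * p)
        (4 * m)
        (Fermat.Agent.T1B.Degen21.Level.piOne (4 * m) p Fact.out)
        (Fermat.Agent.T1B.Degen21.Level.piTwo (4 * m) p Fact.out)
        (uTwo (4 * m * p))
        (holLogSubgroup (IsLocalRing.ResidueField ↥A) (4 * m) p)
        (heckeT2End (IsLocalRing.ResidueField ↥A))
        (Hol13.U2End (IsLocalRing.ResidueField ↥A))) := by
    rintro A rfl
    exact h p m hp5 hm hodd hsq hpm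
  exact key (stdPlace p) (stdPlace_eq p)

/-- **S44 from the four remaining Props.** -/
theorem s44_of_four (Ap : ℕ → ValuationSubring (AlgebraicClosure ℚ))
    (hAp : ∀ p : ℕ, p.Prime → (Ap p).LiesOverPrime p)
    (hE : EMBED44 uTwo) (h0 : LIFT0 uTwo) (hG : LOCALGEOM.{uA, uE, uS, uR} Ap) (hQ : Hol13.QEXP)
    (P : FreyPackage) {N : ℕ} (hcond : P.IsConductorLevel N) (hpN : P.p ∣ N)
    (hirr : GaloisRepIsIrreducible (K := AlgebraicClosure ℚ) ℚ P.freyCurve P.p)
    (hmod : P.ModularRepOfLevel N) :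
    ∃ M : ℕ, M ∣ N ∧ ¬ P.p ∣ M ∧ P.ModularRepOfLevel M :=
  s44_of_main44
    (Fermat.Agent.T1B.Local66.Main.s44_of_localGeom.{uA, uE, uS, uR} Ap hAp hE h0 hQ
      Fermat.Agent.T1B.G4DS2.liftQ hG) P hcond hpN hirr hmod

/-- **S44 from the four remaining Props, at the Prelude's place.** -/
theorem s44_of_four_std (hE : EMBED44 uTwo) (h0 : LIFT0 uTwo)
    (hG : LOCALGEOMStd.{uA, uE, uS, uR}) (hQ : Hol13.QEXP)
    (P : FreyPackage) {N : ℕ} (hcond : P.IsConductorLevel N) (hpN : P.p ∣ N)
    (hirr : GaloisRepIsIrreducible (K := AlgebraicClosure ℚ) ℚ P.freyCurve P.p)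
    (hmod : P.ModularRepOfLevel N) :
    ∃ M : ℕ, M ∣ N ∧ ¬ P.p ∣ M ∧ P.ModularRepOfLevel M :=
  s44_of_four stdPlace stdPlace_liesOverPrime hE h0 (localGeom_stdPlace hG) hQ P hcond hpN hirr
    hmod

end Fermat.Agent.T1B.Top68
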