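/-
T1B / TOP44 (helper68): CLOSING FILE of S44, final stage — `EMBED44 uTwo` and `LIFT0 uTwo` are theorems:

* `EMBED44 uTwo` := `GBLR83.Final.embed44_uTwo`   (helper83; E[p]-side helper48, helper78, helper69, helper6)
* `LIFT0 uTwo`   := `Lift7.lift0_uTwo`            (helper7; Kummer comparison helper78, helper48, helper69, helper6)

  frozen S44  ⇐  LOCALGEOMStd  +  Hol13.QEXP                                       (`s44_of_two_std`)

`LOCALGEOMStd` (`Top68/Close.lean`) is the local contract `Local66.Assembly.LocalGeom` at the Prelude's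
place `padicPlace p` with the `q`-dlog detector parameters (helper66 + the cells J-BRIDGE, NODE/PHI,
RED/HECKE, TORIC); `Hol13.QEXP` is helper13's cell H.
-/
import Mathlib
import Fermat.Agent.T1B.Top68.Close
import Fermat.Agent.T1B.Lift7.FinalK
import Fermat.Agent.T1B.GBLR83.Final

set_option autoImplicit false
open WeierstrassCurve WeierstrassCurve.Affine WeierstrassCurve.Affine.Point
open ModularCurve

noncomputable section

namespace Fermat.Agent.T1B.Top68

open Fermat.Agent.T1B.Degen21.UFam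

universe uA uE uS uR

/-- **S44 from the two remaining Props, at the Prelude's place.** -/
theorem s44_of_two_std (hG : LOCALGEOMStd.{uA, uE, uS, uR}) (hQ : Hol13.QEXP)
    (P : FreyPackage) {N : ℕ} (hcond : P.IsConductorLevel N) (hpN : P.p ∣ N)
    (hirr : GaloisRepIsIrreducible (K := AlgebraicClosure ℚ) ℚ P.freyCurve P.p)
    (hmod : P.ModularRepOfLevel N) :
    ∃ M : ℕ, M ∣ N ∧ ¬ P.p ∣ M ∧ P.ModularRepOfLevel M :=
  s44_of_four_std Fermat.Agent.T1B.GBLR83.Final.embed44_uTwo Fermat.Agent.T1B.Lift7.lift0_uTwo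
    hG hQ P hcond hpN hirr hmod

/-- **S44 from the two remaining Props, for any family of places.** -/
theorem s44_of_two (Ap : ℕ → ValuationSubring (AlgebraicClosure ℚ))
    (hAp : ∀ p : ℕ, p.Prime → (Ap p).LiesOverPrime p)
    (hG : LOCALGEOM.{uA, uE, uS, uR} Ap) (hQ : Hol13.QEXP)
    (P : FreyPackage) {N : ℕ} (hcond : P.IsConductorLevel N) (hpN : P.p ∣ N)
    (hirr : GaloisRepIsIrreducible (K := AlgebraicClosure ℚ) ℚ P.freyCurve P.p)
    (hmod : P.ModularRepOfLevel N) :
    ∃ M : ℕ, M ∣ N ∧ ¬ P.p ∣ M ∧ P.ModularRepOfLevel M :=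
  s44_of_four Ap hAp Fermat.Agent.T1B.GBLR83.Final.embed44_uTwo Fermat.Agent.T1B.Lift7.lift0_uTwo
    hG hQ P hcond hpN hirr hmod

end Fermat.Agent.T1B.Top68
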